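import Fermat.Agent.BorsukUlam.Sphere
import Mathlib.Analysis.Normed.Module.FiniteDimension
import Mathlib.Algebra.BigOperators.Intervals
import Mathlib.Data.Sign.Basic

/-!
# The necklace theorem of Goldberg and West for two thieves
-/

set_option autoImplicit false

noncomputable section

namespace FA.TopologicalComb

open Finset

variable {n t : ℕ}

/-- The part of the bead `j` left of the point `y`. -/
def leftPart (j : ℕ) (y : ℝ) : ℝ := max 0 (min 1 (y - j))

theorem continuous_leftPart (j : ℕ) : Continuous (leftPart j) :=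
  continuous_const.max (continuous_const.min (continuous_id.sub continuous_const))

theorem leftPart_mono (j : ℕ) : Monotone (leftPart j) := fun a b h =>
  max_le_max le_rfl (min_le_min le_rfl (sub_le_sub_right h _))

theorem leftPart_zero (j : ℕ) : leftPart j 0 = 0 :=
  max_eq_left ((min_le_right _ _).trans (by simp))

theorem leftPart_of_ge {j : ℕ} {y : ℝ} (h : (j : ℝ) + 1 ≤ y) : leftPart j y = 1 := by
  rw [leftPart, min_eq_left (by linarith), max_eq_right zero_le_one]

theorem bead_of_leftPart_lt {j : ℕ} {a b : ℝ} (h : leftPart j a < leftPart j b) :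
    (j : ℝ) < b ∧ a < (j : ℝ) + 1 := by
  constructor
  · by_contra hb
    rw [not_lt] at hb
    have : leftPart j b = 0 := max_eq_left ((min_le_right _ _).trans (by linarith))
    have h0 : 0 ≤ leftPart j a := le_max_left _ _
    linarith
  · by_contra ha
    rw [not_lt] at ha
    have : leftPart j b ≤ 1 := max_le zero_le_one (min_le_left _ _)
    rw [leftPart_of_ge ha] at h
    linarith

/-- The `i`-th cut point for segments of lengths proportional to `|x|`. -/
def cutPt (n : ℕ) (x : Fin (t + 1) → ℝ) (i : ℕ) : ℝ :=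
  (n : ℝ) * (∑ l ∈ univ.filter (fun l : Fin (t + 1) => l.val < i), |x l|) / ∑ l, |x l|

/-- The part of the bead `j` in the segment `i`. -/
def overlap (n : ℕ) (x : Fin (t + 1) → ℝ) (i : Fin (t + 1)) (j : ℕ) : ℝ :=
  leftPart j (cutPt n x (i.val + 1)) - leftPart j (cutPt n x i.val)

theorem cutPt_mono (x : Fin (t + 1) → ℝ) : Monotone (cutPt n x) := fun a b h =>
  div_le_div_of_nonneg_right (mul_le_mul_of_nonneg_left (sum_le_sum_of_subset_of_nonneg
    (fun l hl => mem_filter.2 ⟨mem_univ l, (mem_filter.1 hl).2.trans_le h⟩) fun l _ _ => abs_nonneg _)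
    (Nat.cast_nonneg' n)) (sum_nonneg fun l _ => abs_nonneg _)

theorem overlap_nonneg (x : Fin (t + 1) → ℝ) (i : Fin (t + 1)) (j : ℕ) :
    0 ≤ overlap n x i j :=
  sub_nonneg.2 (leftPart_mono j (cutPt_mono x (Nat.le_succ _)))

theorem sum_abs_pos {x : Fin (t + 1) → ℝ} (hx : x ≠ 0) : 0 < ∑ l, |x l| := by
  obtain ⟨l, hl⟩ := Function.ne_iff.1 hx
  exact sum_pos' (fun l _ => abs_nonneg _) ⟨l, mem_univ l, abs_pos.2 hl⟩

theorem sum_overlap {x : Fin (t + 1) → ℝ} (hx : x ≠ 0) {j : ℕ} (hj : j < n) :
    ∑ i, overlap n x i j = 1 := by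
  simp only [overlap]
  rw [Fin.sum_univ_eq_sum_range (fun i => leftPart j (cutPt n x (i + 1)) - leftPart j (cutPt n x i)),
    sum_range_sub (fun i => leftPart j (cutPt n x i)),
    show cutPt n x 0 = 0 by simp [cutPt], leftPart_zero, sub_zero]
  refine leftPart_of_ge ?_
  rw [cutPt, filter_true_of_mem fun l _ => l.isLt, mul_div_assoc, div_self (sum_abs_pos hx).ne',
    mul_one]
  exact_mod_cast hj

theorem overlap_eq_zero {x : Fin (t + 1) → ℝ} {i : Fin (t + 1)} (h : x i = 0) (j : ℕ) :
    overlap n x i j = 0 := by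
  rw [overlap, sub_eq_zero]
  congr 1
  simp only [cutPt]
  congr 2
  refine (sum_subset (fun l hl => ?_) fun l hl hl' => ?_).symm
  · exact mem_filter.2 ⟨mem_univ l, Nat.lt_succ_of_lt (mem_filter.1 hl).2⟩
  · have h1 : l.val < i.val + 1 := (mem_filter.1 hl).2
    have h2 : ¬ l.val < i.val := fun h' => hl' (mem_filter.2 ⟨mem_univ l, h'⟩)
    rw [show l = i from Fin.ext (by omega), h, abs_zero]

theorem continuousAt_cutPt {x : Fin (t + 1) → ℝ} (hx : x ≠ 0) (i : ℕ) :
    ContinuousAt (fun y : Fin (t + 1) → ℝ => cutPt n y i) x := by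
  exact ContinuousAt.div
    (continuous_const.mul (continuous_finsetSum _ fun l _ => (continuous_apply l).abs)).continuousAt
    (continuous_finsetSum _ fun l _ => (continuous_apply l).abs).continuousAt (sum_abs_pos hx).ne'

/-- The signed measure of the colour class. -/
def imbalance (c : Fin n → Fin t) (x : Fin (t + 1) → ℝ) (k : Fin t) : ℝ :=
  ∑ j ∈ univ.filter (fun j => c j = k), ∑ i, (SignType.sign (x i) : ℝ) * overlap n x i j

theorem continuousAt_imbalance (c : Fin n → Fin t) {x : Fin (t + 1) → ℝ} (hx : x ≠ 0) (k : Fin t) :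
    ContinuousAt (fun y => imbalance c y k) x := by
  refine tendsto_finsetSum _ fun j _ => tendsto_finsetSum _ fun i _ => ?_
  have hov : ContinuousAt (fun y : Fin (t + 1) → ℝ => overlap n y i j) x :=
    ((continuous_leftPart j).continuousAt.comp (continuousAt_cutPt hx _)).sub
      ((continuous_leftPart j).continuousAt.comp (continuousAt_cutPt hx _))
  by_cases hi : x i = 0
  · rw [hi, _root_.sign_zero, SignType.coe_zero, zero_mul]
    have h0 : Filter.Tendsto (fun y : Fin (t + 1) → ℝ => overlap n y i j) (nhds x) (nhds 0) := by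
      have h := hov.tendsto
      rwa [overlap_eq_zero hi] at h
    refine squeeze_zero_norm (fun y => ?_) h0
    rw [Real.norm_eq_abs, abs_mul, abs_of_nonneg (overlap_nonneg y i j)]
    refine mul_le_of_le_one_left (overlap_nonneg y i j) ?_
    rcases SignType.trichotomy (SignType.sign (y i)) with h | h | h <;> simp [h]
  · have hsign : ContinuousAt (fun y : Fin (t + 1) → ℝ => (SignType.sign (y i) : ℝ)) x := by
      refine (continuousAt_const (y := (SignType.sign (x i) : ℝ))).congr ?_
      have hc : ContinuousAt (fun y : Fin (t + 1) → ℝ => y i) x := (continuous_apply i).continuousAt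
      rcases Ne.lt_or_gt hi with h | h
      · exact (hc.eventually (gt_mem_nhds h)).mono fun y hy => by
          simp only; rw [_root_.sign_neg h, _root_.sign_neg hy]
      · exact (hc.eventually (lt_mem_nhds h)).mono fun y hy => by
          simp only; rw [_root_.sign_pos h, _root_.sign_pos hy]
    exact hsign.mul hov

/-- **The necklace theorem.** -/
theorem necklace (c : Fin n → Fin t)
    (heven : ∀ k, Even (univ.filter fun j => c j = k).card) :
    ∃ h : Fin n → Bool,
      (∀ k, 2 * (univ.filter fun j => c j = k ∧ h j = true).card =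
        (univ.filter fun j => c j = k).card) ∧
      (univ.filter fun j : Fin n => ∃ hj : j.val + 1 < n, h j ≠ h ⟨j.val + 1, hj⟩).card ≤ t := by
  classical
  obtain ⟨x, hxs, hx⟩ := Fermat.Agent.BorsukUlam.exists_zero_sphere (V := Fin (t + 1) → ℝ)
    (f := imbalance c) (by
      rw [Module.finrank_fintype_fun_eq_card, Module.finrank_fintype_fun_eq_card, Fintype.card_fin,
        Fintype.card_fin]
      exact Nat.lt_succ_self t)
    (fun y hy => ContinuousAt.continuousWithinAt (continuousAt_pi.2 fun k =>
      continuousAt_imbalance c (fun h => by simp [h] at hy) k))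
    (fun y _ => by
      funext k
      simp only [imbalance, Pi.neg_apply, Left.sign_neg, SignType.coe_neg, neg_mul,
        ← sum_neg_distrib]
      refine sum_congr rfl fun j _ => sum_congr rfl fun i _ => ?_
      simp [overlap, cutPt])
  have hx0 : x ≠ 0 := fun h => by simp [h] at hxs
  obtain ⟨μ, hμ⟩ : ∃ μ : Fin n → ℝ,
      μ = fun j : Fin n => ∑ i ∈ univ.filter (fun i => 0 < x i), overlap n x i j := ⟨_, rfl⟩
  have hμneg : ∀ j : Fin n, 1 - μ j = ∑ i ∈ univ.filter (fun i => ¬ 0 < x i), overlap n x i j := by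
    intro j
    rw [hμ, ← sum_overlap hx0 j.isLt,
      ← sum_filter_add_sum_filter_not univ (fun i => 0 < x i)]
    ring
  have hμ0 : ∀ j, 0 ≤ μ j := fun j => hμ ▸ sum_nonneg fun i _ => overlap_nonneg x i _
  have hμ1 : ∀ j, μ j ≤ 1 := fun j => by
    have := hμneg j
    have h0 : 0 ≤ ∑ i ∈ univ.filter (fun i => ¬ 0 < x i), overlap n x i j :=
      sum_nonneg fun i _ => overlap_nonneg x i _
    linarith
  have hhalf : ∀ k, 2 * ∑ j ∈ univ.filter (fun j => c j = k), μ j =
      ((univ.filter fun j => c j = k).card : ℝ) := by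
    intro k
    have h := congrFun hx k
    rw [imbalance, Pi.zero_apply, sum_congr rfl fun (j : Fin n) _ => show
      ∑ i, (SignType.sign (x i) : ℝ) * overlap n x i j = 2 * μ j - 1 from ?_] at h
    · rw [sum_sub_distrib, sum_const, nsmul_eq_mul, mul_one, ← mul_sum] at h
      linarith
    rw [show 2 * μ j - 1 = μ j - (1 - μ j) by ring, hμneg j, hμ]
    simp only [sum_filter, ← sum_sub_distrib]
    refine sum_congr rfl fun i _ => ?_
    rcases lt_trichotomy (x i) 0 with h' | h' | h'
    · simp [_root_.sign_neg h', h'.not_gt]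
    · simp [h', overlap_eq_zero h']
    · simp [_root_.sign_pos h', h']
  -- round the fractional beads
  have hT : ∀ k, ∃ T : Finset (Fin n), (∀ j, μ j = 1 → c j = k → j ∈ T) ∧
      (∀ j ∈ T, c j = k ∧ 0 < μ j) ∧ 2 * T.card = (univ.filter fun j => c j = k).card := by
    intro k
    obtain ⟨m, hm⟩ := heven k
    have hsum : ∑ j ∈ univ.filter (fun j => c j = k), μ j = (m : ℝ) := by
      have := hhalf k
      rw [hm] at this
      push_cast at this
      linarith
    have h1 : ((univ.filter fun j => c j = k).filter fun j => μ j = 1).card ≤ m := by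
      have : (((univ.filter fun j => c j = k).filter fun j => μ j = 1).card : ℝ) ≤ m := by
        rw [← hsum, card_filter, Nat.cast_sum]
        exact sum_le_sum fun j _ => by split_ifs with hj <;> simp [hj, hμ0 j]
      exact_mod_cast this
    have h2 : m ≤ ((univ.filter fun j => c j = k).filter fun j => 0 < μ j).card := by
      have : (m : ℝ) ≤ (((univ.filter fun j => c j = k).filter fun j => 0 < μ j).card : ℝ) := by
        rw [← hsum, card_filter, Nat.cast_sum]
        refine sum_le_sum fun j _ => ?_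
        split_ifs with hj
        · simpa using hμ1 j
        · simpa using not_lt.1 hj
      exact_mod_cast this
    obtain ⟨T, hT1, hT2, hT3⟩ := exists_subsuperset_card_eq (fun j hj => mem_filter.2
      ⟨(mem_filter.1 hj).1, by rw [(mem_filter.1 hj).2]; exact one_pos⟩) h1 h2
    exact ⟨T, fun j hj hjk => hT1 (mem_filter.2 ⟨mem_filter.2 ⟨mem_univ j, hjk⟩, hj⟩),
      fun j hj => ⟨(mem_filter.1 (mem_filter.1 (hT2 hj)).1).2, (mem_filter.1 (hT2 hj)).2⟩,
      by rw [hT3, hm]; ring⟩
  choose T hTone hTmem hTcard using hT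
  obtain ⟨h, hh⟩ : ∃ h : Fin n → Bool, h = fun j => decide (j ∈ T (c j)) := ⟨_, rfl⟩
  refine ⟨h, fun k => ?_, ?_⟩
  · refine Eq.trans ?_ (hTcard k)
    congr 2
    ext j
    simp only [hh, mem_filter, mem_univ, true_and, decide_eq_true_eq]
    exact ⟨fun ⟨e, hj⟩ => e ▸ hj, fun hj => ⟨(hTmem k j hj).1, (hTmem k j hj).1.symm ▸ hj⟩⟩
  -- each bead meets a segment of the sign of its thief
  have hseg : ∀ j : Fin n, ∃ i : Fin (t + 1), (h j = true ↔ 0 < x i) ∧ 0 < overlap n x i j := by
    intro j
    by_cases hj : j ∈ T (c j)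
    · obtain ⟨i, hi, hpos⟩ := exists_lt_of_sum_lt (f := fun _ => (0 : ℝ))
        (g := fun i => overlap n x i j) (s := univ.filter fun i => 0 < x i) (by
          have := (hTmem _ j hj).2
          rw [hμ] at this
          simpa using this)
      exact ⟨i, by simpa [hh, hj] using (mem_filter.1 hi).2, hpos⟩
    · obtain ⟨i, hi, hpos⟩ := exists_lt_of_sum_lt (f := fun _ => (0 : ℝ))
        (g := fun i => overlap n x i j) (s := univ.filter fun i => ¬ 0 < x i) (by
          have : μ j < 1 := lt_of_le_of_ne (hμ1 j) fun e => hj (hTone _ j e rfl)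
          have := hμneg j
          simp only [sum_const_zero]
          linarith)
      exact ⟨i, by simpa [hh, hj] using (mem_filter.1 hi).2, hpos⟩
  choose g hgh hgpos using hseg
  have hmono : ∀ a b : Fin n, a < b → g a ≤ g b := by
    intro a b hab
    by_contra hcon
    rw [not_le] at hcon
    have h1 := (bead_of_leftPart_lt (sub_pos.1 (hgpos a))).2
    have h2 := (bead_of_leftPart_lt (sub_pos.1 (hgpos b))).1
    have h3 : cutPt n x ((g b).val + 1) ≤ cutPt n x (g a).val := cutPt_mono x hcon
    have h4 : ((a.val : ℝ) + 1) ≤ b.val := by exact_mod_cast hab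
    linarith
  calc _ ≤ ((univ : Finset (Fin t)).map (Fin.succEmb t)).card := ?_
    _ = t := by simp
  refine card_le_card_of_injOn
    (fun j : Fin n => if hj : j.val + 1 < n then g ⟨j.val + 1, hj⟩ else g j) (fun j hj => ?_) ?_
  · obtain ⟨hjn, hne⟩ := (mem_filter.1 hj).2
    simp only [dif_pos hjn]
    have hlt : g j < g ⟨j.val + 1, hjn⟩ := lt_of_le_of_ne (hmono _ _ (Nat.lt_succ_self j.val))
      fun e => hne (Bool.eq_iff_iff.2 ((hgh j).trans (e ▸ (hgh _).symm)))
    obtain ⟨z, hz⟩ := Fin.exists_succ_eq.2 (Fin.ne_zero_of_lt hlt)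
    exact mem_map.2 ⟨z, mem_univ z, hz⟩
  · intro a ha b hb e
    obtain ⟨han, hane⟩ := (mem_filter.1 ha).2
    obtain ⟨hbn, hbne⟩ := (mem_filter.1 hb).2
    simp only [dif_pos han, dif_pos hbn] at e
    by_contra hne
    rcases lt_or_gt_of_ne hne with hab | hab
    · have h1 : g ⟨a.val + 1, han⟩ ≤ g b := by
        rcases Nat.lt_or_ge (a.val + 1) b.val with h' | h'
        · exact hmono _ _ h'
        · have : a.val + 1 = b.val := le_antisymm hab h'
          exact le_of_eq (congrArg g (Fin.ext this))
      have h2 := hmono b ⟨b.val + 1, hbn⟩ (Nat.lt_succ_self b.val)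
      exact hbne (Bool.eq_iff_iff.2 ((hgh b).trans
        ((le_antisymm h2 (e ▸ h1)) ▸ (hgh _).symm)))
    · have h1 : g ⟨b.val + 1, hbn⟩ ≤ g a := by
        rcases Nat.lt_or_ge (b.val + 1) a.val with h' | h'
        · exact hmono _ _ h'
        · have : b.val + 1 = a.val := le_antisymm hab h'
          exact le_of_eq (congrArg g (Fin.ext this))
      have h2 := hmono a ⟨a.val + 1, han⟩ (Nat.lt_succ_self a.val)
      exact hane (Bool.eq_iff_iff.2 ((hgh a).trans
        ((le_antisymm h2 (e.symm ▸ h1)) ▸ (hgh _).symm)))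

end FA.TopologicalComb
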