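import Mathlib.LinearAlgebra.Lagrange
import Mathlib.Topology.Algebra.Polynomial
import Mathlib.Topology.Order.IntermediateValue
import Mathlib.Algebra.Polynomial.Roots

/-!
# Gale's lemma

For a nonzero real polynomial of degree at most `n - 2 k`, some `k` of the integers `i < n`, no two
cyclically adjacent, have `(-1) ^ i P (i) > 0`.
-/

set_option autoImplicit false

noncomputable section

namespace FA.TopologicalComb

open Finset

/-- No two cyclically adjacent members of `range n`. -/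
def CyclicStable (n : ℕ) (S : Finset ℕ) : Prop :=
  (∀ a ∈ S, a < n) ∧ (∀ a ∈ S, a + 1 ∉ S) ∧ ¬ (0 ∈ S ∧ n - 1 ∈ S)

/-- The number of equal neighbours among `g 0, …, g (m - 1)`. -/
def equalSteps (g : ℕ → Bool) (m : ℕ) : ℕ :=
  ((range (m - 1)).filter fun i => g i = g (i + 1)).card

theorem equalSteps_succ (g : ℕ → Bool) (m : ℕ) :
    equalSteps g (m + 2) = equalSteps g (m + 1) + if g m = g (m + 1) then 1 else 0 := by
  simp only [equalSteps, card_filter]
  exact sum_range_succ _ m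

/-- Good positions, no two adjacent, as many as the alternation allows. -/
theorem exists_alternating (g : ℕ → Bool) : ∀ m : ℕ, ∃ S : Finset ℕ,
    (∀ a ∈ S, a ≤ m ∧ g a = true) ∧ (∀ a ∈ S, a + 1 ∉ S) ∧
    m + 1 + (if 0 ∈ S then 1 else 0) + (if m ∈ S then 1 else 0) ≤
      2 * S.card + equalSteps g (m + 1) + 1 ∧
    (m ∉ S → g m = true →
      m + 1 + (if 0 ∈ S then 1 else 0) ≤ 2 * S.card + equalSteps g (m + 1)) := by
  intro m
  induction m with
  | zero =>
    cases hg : g 0
    · exact ⟨∅, by simp, by simp, by simp [equalSteps], fun _ h => by simp at h⟩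
    · exact ⟨{0}, by simp [hg], by simp, by simp [equalSteps], by simp⟩
  | succ m ih =>
    obtain ⟨S, hS, hadj, hcount, hslack⟩ := ih
    have hm1 : m + 1 ∉ S := fun h => by have := (hS _ h).1; omega
    have hS' : ∀ a ∈ S, a ≤ m + 1 ∧ g a = true := fun a ha =>
      ⟨(hS a ha).1.trans (Nat.le_succ m), (hS a ha).2⟩
    rw [equalSteps_succ]
    by_cases hg : g (m + 1) = true
    · by_cases hlast : m ∈ S
      · refine ⟨S, hS', hadj, ?_, fun _ _ => ?_⟩
        all_goals simp only [hlast, hm1, if_true, if_false, (hS m hlast).2, hg] at hcount ⊢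
        all_goals omega
      · refine ⟨insert (m + 1) S, ?_, ?_, ?_, fun h => absurd (mem_insert_self _ _) h⟩
        · intro a ha
          rcases mem_insert.1 ha with rfl | ha
          exacts [⟨le_rfl, hg⟩, hS' a ha]
        · intro a ha ha'
          rcases mem_insert.1 ha with rfl | ha <;> rcases mem_insert.1 ha' with h | h
          · omega
          · have := (hS _ h).1; omega
          · have : a = m := by omega
            exact hlast (this ▸ ha)
          · exact hadj a ha h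
        · rw [card_insert_of_notMem hm1]
          simp only [mem_insert, true_or, if_true, hlast, if_false] at hcount ⊢
          have : (if 0 = m + 1 ∨ 0 ∈ S then 1 else 0) = (if 0 ∈ S then 1 else 0) := by simp
          rw [this]
          omega
    · refine ⟨S, hS', hadj, ?_, fun _ h => absurd h hg⟩
      simp only [hm1, if_false]
      by_cases hlast : m ∈ S
      · simp only [hlast, if_true] at hcount
        omega
      · by_cases hgm : g m = true
        · have := hslack hlast hgm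
          omega
        · have hgm' : g m = g (m + 1) := by
            rw [Bool.eq_false_iff.2 hgm, Bool.eq_false_iff.2 hg]
          simp only [hlast, if_false] at hcount
          simp only [hgm', if_true]
          omega

theorem exists_cyclicStable (g : ℕ → Bool) {n k : ℕ} (hn : 1 ≤ n)
    (hc : equalSteps g n + 2 * k ≤ n) :
    ∃ S : Finset ℕ, CyclicStable n S ∧ S.card = k ∧ ∀ a ∈ S, g a = true := by
  obtain ⟨m, rfl⟩ : ∃ m, n = m + 1 := ⟨n - 1, by omega⟩
  obtain ⟨S, hS, hadj, hcount, -⟩ := exists_alternating g m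
  obtain ⟨T, hTS, hT, hTcyc⟩ : ∃ T, T ⊆ S ∧ m + 1 ≤ 2 * T.card + equalSteps g (m + 1) + 1 ∧
      ¬ (0 ∈ T ∧ m ∈ T) := by
    by_cases hboth : 0 ∈ S ∧ m ∈ S
    · refine ⟨S.erase 0, erase_subset _ _, ?_, fun h => notMem_erase 0 S h.1⟩
      simp only [hboth.1, hboth.2, if_true] at hcount
      rw [card_erase_of_mem hboth.1]
      have := card_pos.2 ⟨0, hboth.1⟩
      omega
    · exact ⟨S, subset_rfl, by omega, hboth⟩
  obtain ⟨U, hUT, hU⟩ := exists_subset_card_eq (show k ≤ T.card by omega)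
  refine ⟨U, ⟨fun a ha => Nat.lt_succ_of_le (hS a (hTS (hUT ha))).1,
    fun a ha ha' => hadj a (hTS (hUT ha)) (hTS (hUT ha')),
    fun h => hTcyc ⟨hUT h.1, hUT (by simpa using h.2)⟩⟩, hU, fun a ha => (hS a (hTS (hUT ha))).2⟩

theorem neg_one_pow_ne_zero' (i : ℕ) : ((-1 : ℝ)) ^ i ≠ 0 := pow_ne_zero _ (by norm_num)

/-- Equal neighbours force roots. -/
theorem equalSteps_le_natDegree {P : Polynomial ℝ} {n : ℕ} (hP : P ≠ 0)
    (hne : ∀ i < n, P.eval (i : ℝ) ≠ 0) :
    equalSteps (fun i => decide (0 < (-1 : ℝ) ^ i * P.eval (i : ℝ))) n ≤ P.natDegree := by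
  classical
  refine le_trans ?_ ((Multiset.toFinset_card_le _).trans (Polynomial.card_roots' P))
  have hroot : ∀ i ∈ (range (n - 1)).filter (fun i : ℕ => decide (0 < (-1 : ℝ) ^ i * P.eval (i : ℝ)) =
      decide (0 < (-1 : ℝ) ^ (i + 1) * P.eval ((i + 1 : ℕ) : ℝ))),
      ∃ r, (i : ℝ) < r ∧ r < (i : ℝ) + 1 ∧ r ∈ P.roots.toFinset := by
    intro i hi
    obtain ⟨hi, he⟩ := mem_filter.1 hi
    have hi' := mem_range.1 hi
    rw [decide_eq_decide, pow_succ, mul_neg_one, neg_mul, neg_pos] at he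
    have h1 : P.eval (i : ℝ) ≠ 0 := hne i (by omega)
    have h2 : P.eval ((i + 1 : ℕ) : ℝ) ≠ 0 := hne (i + 1) (by omega)
    have hprod : P.eval (i : ℝ) * P.eval ((i + 1 : ℕ) : ℝ) < 0 := by
      rcases (mul_ne_zero (neg_one_pow_ne_zero' i) h1).lt_or_gt with h | h
      · have h' : 0 < (-1 : ℝ) ^ i * P.eval ((i + 1 : ℕ) : ℝ) :=
          lt_of_le_of_ne (not_lt.1 fun h3 => h.not_gt (he.2 h3))
            (mul_ne_zero (neg_one_pow_ne_zero' i) h2).symm
        have := mul_neg_of_neg_of_pos h h'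
        nlinarith [sq_nonneg ((-1 : ℝ) ^ i)]
      · have h' := he.1 h
        have := mul_neg_of_pos_of_neg h h'
        nlinarith [sq_nonneg ((-1 : ℝ) ^ i)]
    push_cast at h2 hprod
    have hcont : ContinuousOn (fun t => P.eval t) (Set.Icc (i : ℝ) ((i : ℝ) + 1)) :=
      (Polynomial.continuous P).continuousOn
    obtain ⟨r, hr, hr0⟩ : ∃ r ∈ Set.Icc (i : ℝ) ((i : ℝ) + 1), P.eval r = 0 := by
      rcases h1.lt_or_gt with h | h
      · exact intermediate_value_Icc (by linarith) hcont ⟨h.le, by nlinarith⟩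
      · exact intermediate_value_Icc' (by linarith) hcont ⟨by nlinarith, h.le⟩
    exact ⟨r, lt_of_le_of_ne hr.1 fun e => h1 (e ▸ hr0), lt_of_le_of_ne hr.2 fun e => h2 (e ▸ hr0),
      Multiset.mem_toFinset.2 ((Polynomial.mem_roots hP).2 hr0)⟩
  choose! r hr using hroot
  refine card_le_card_of_injOn r (fun i hi => (hr i hi).2.2) fun i hi j hj e => ?_
  have h1 := hr i hi
  have h2 := hr j hj
  rw [e] at h1
  have e1 : (i : ℝ) < ((j + 1 : ℕ) : ℝ) := by push_cast; linarith
  have e2 : (j : ℝ) < ((i + 1 : ℕ) : ℝ) := by push_cast; linarith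
  rw [Nat.cast_lt] at e1 e2
  omega

/-- **Gale's lemma.** -/
theorem gale {n k : ℕ} (hk : 2 * k ≤ n) (hn : 1 ≤ n) (P : Polynomial ℝ) (hP : P ≠ 0)
    (hdeg : P.natDegree ≤ n - 2 * k) :
    ∃ S : Finset ℕ, CyclicStable n S ∧ S.card = k ∧ ∀ a ∈ S, 0 < (-1 : ℝ) ^ a * P.eval (a : ℝ) := by
  classical
  obtain ⟨Z, hZ⟩ : ∃ Z, Z = (range n).filter fun i : ℕ => P.eval (i : ℝ) = 0 := ⟨_, rfl⟩
  have hZcard : Z.card ≤ P.natDegree := by
    refine (card_le_card_of_injOn (fun i : ℕ => (i : ℝ)) (t := P.roots.toFinset) (fun i hi => ?_)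
      fun i _ j _ e => Nat.cast_injective e).trans
      ((Multiset.toFinset_card_le _).trans (Polynomial.card_roots' P))
    exact Multiset.mem_toFinset.2 ((Polynomial.mem_roots hP).2 (mem_filter.1 (hZ ▸ hi :)).2)
  have hinj : Set.InjOn (fun i : ℕ => (i : ℝ)) Z := fun i _ j _ e => Nat.cast_injective e
  obtain ⟨R, hR⟩ : ∃ R : Polynomial ℝ,
      R = Lagrange.interpolate Z (fun i : ℕ => (i : ℝ)) fun i => -(-1 : ℝ) ^ i := ⟨_, rfl⟩
  have hev : ∀ i ∈ range n, ∀ᶠ ε : ℝ in nhdsWithin 0 (Set.Ioi 0),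
      P.eval (i : ℝ) + ε * R.eval (i : ℝ) ≠ 0 ∧
        (0 < (-1 : ℝ) ^ i * (P.eval (i : ℝ) + ε * R.eval (i : ℝ)) →
          0 < (-1 : ℝ) ^ i * P.eval (i : ℝ)) := by
    intro i hi
    by_cases h0 : P.eval (i : ℝ) = 0
    · filter_upwards [self_mem_nhdsWithin] with ε hε
      have hiZ : i ∈ Z := hZ ▸ mem_filter.2 ⟨hi, h0⟩
      rw [hR, Lagrange.eval_interpolate_at_node _ hinj hiZ, h0, zero_add]
      refine ⟨mul_ne_zero (ne_of_gt hε) (neg_ne_zero.2 (neg_one_pow_ne_zero' i)), fun h => ?_⟩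
      exfalso
      have hεpos : (0 : ℝ) < ε := hε
      have : ((-1 : ℝ) ^ i) * ((-1 : ℝ) ^ i) = 1 := by rw [← mul_pow]; norm_num
      nlinarith
    · refine Filter.Eventually.filter_mono nhdsWithin_le_nhds ?_
      have hc : Continuous fun ε : ℝ => (-1 : ℝ) ^ i * (P.eval (i : ℝ) + ε * R.eval (i : ℝ)) := by
        fun_prop
      rcases (mul_ne_zero (neg_one_pow_ne_zero' i) h0).lt_or_gt with h | h
      · filter_upwards [hc.continuousAt.eventually (gt_mem_nhds (a := (0 : ℝ)) (by simpa using h))]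
          with ε hε
        exact ⟨fun e => by rw [e, mul_zero] at hε; exact lt_irrefl _ hε,
          fun h' => absurd h' hε.not_gt⟩
      · filter_upwards [hc.continuousAt.eventually (lt_mem_nhds (a := (0 : ℝ)) (by simpa using h))]
          with ε hε
        exact ⟨fun e => by rw [e, mul_zero] at hε; exact lt_irrefl _ hε, fun _ => h⟩
  obtain ⟨ε, hε⟩ := ((Filter.eventually_all_finset _).2 hev).exists
  obtain ⟨Q, hQ⟩ : ∃ Q : Polynomial ℝ, Q = P + Polynomial.C ε * R := ⟨_, rfl⟩
  have hQev : ∀ t, Q.eval t = P.eval t + ε * R.eval t := fun t => by simp [hQ]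
  have hQ0 : Q ≠ 0 := fun h => (hε 0 (mem_range.2 hn)).1 (by rw [← hQev, h, Polynomial.eval_zero])
  have hQdeg : Q.natDegree ≤ P.natDegree := by
    rw [hQ]
    refine (Polynomial.natDegree_add_le _ _).trans (max_le le_rfl
      ((Polynomial.natDegree_C_mul_le _ _).trans (le_trans ?_ hZcard)))
    rcases eq_or_ne R 0 with h | h
    · rw [h, Polynomial.natDegree_zero]; exact Nat.zero_le _
    · exact le_of_lt ((Polynomial.natDegree_lt_iff_degree_lt h).2
        (hR ▸ Lagrange.degree_interpolate_lt _ hinj))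
  obtain ⟨S, hS, hcard, hgood⟩ := exists_cyclicStable
    (fun i => decide (0 < (-1 : ℝ) ^ i * Q.eval (i : ℝ))) (k := k) hn (by
      have := equalSteps_le_natDegree (n := n) hQ0 fun i hi => by
        rw [hQev]; exact (hε i (mem_range.2 hi)).1
      omega)
  refine ⟨S, hS, hcard, fun a ha => (hε a (mem_range.2 (hS.1 a ha))).2 ?_⟩
  rw [← hQev]
  simpa using hgood a ha

end FA.TopologicalComb
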