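import Fermat.Agent.BorsukUlam.Sphere
import Fermat.Agent.TopologicalComb.Gale
import Mathlib.Combinatorics.SimpleGraph.Coloring.Vertex
import Mathlib.Analysis.Normed.Module.FiniteDimension
import Mathlib.Data.Fintype.Powerset

/-!
# The theorems of Lovász and Schrijver on Kneser graphs
-/

set_option autoImplicit false

noncomputable section

namespace FA.TopologicalComb

open Finset

/-- The Kneser graph: `k`-subsets of `Fin n`, adjacent when disjoint. -/
def kneserGraph (n k : ℕ) : SimpleGraph {s : Finset (Fin n) // s.card = k} :=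
  SimpleGraph.fromRel fun s t => Disjoint s.1 t.1

/-- No two cyclically adjacent elements. -/
def IsStableSubset {n : ℕ} (s : Finset (Fin n)) : Prop :=
  ∀ a ∈ s, ∀ b ∈ s, (a.val + 1) % n ≠ b.val

/-- The Schrijver graph. -/
def schrijverGraph (n k : ℕ) : SimpleGraph {s : {s : Finset (Fin n) // s.card = k} // IsStableSubset s.1} :=
  (kneserGraph n k).comap Subtype.val

theorem kneser_colorable {n k : ℕ} (hk : 1 ≤ k) (hkn : 2 * k ≤ n) :
    (kneserGraph n k).Colorable (n - 2 * k + 2) := by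
  have hne : ∀ s : {s : Finset (Fin n) // s.card = k}, s.1.Nonempty := fun s =>
    card_pos.1 (by rw [s.2]; omega)
  refine ⟨SimpleGraph.Coloring.mk
    (fun s => (⟨min (s.1.min' (hne s)).val (n - 2 * k + 1), by omega⟩ : Fin (n - 2 * k + 2)))
    fun {s t} hst => ?_⟩
  intro e
  have hdis : Disjoint s.1 t.1 := (SimpleGraph.fromRel_adj _ _ _).1 hst |>.2.elim id fun h => h.symm
  have hval := congrArg Fin.val e
  simp only at hval
  by_cases hs : (s.1.min' (hne s)).val < n - 2 * k + 1
  · have heq : s.1.min' (hne s) = t.1.min' (hne t) := Fin.ext (by omega)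
    exact disjoint_left.1 hdis (s.1.min'_mem (hne s)) (heq ▸ t.1.min'_mem (hne t))
  · -- both sets lie among the last `2 k - 1` points
    have hsub : ∀ u : {s : Finset (Fin n) // s.card = k},
        n - 2 * k + 1 ≤ (u.1.min' (hne u)).val → ∀ a ∈ u.1, n - 2 * k + 1 ≤ a.val := fun u hu a ha =>
      hu.trans (Fin.le_def.1 (u.1.min'_le a ha))
    have h1 : (s.1 ∪ t.1).card ≤ (Ico (n - 2 * k + 1) n).card :=
      card_le_card_of_injOn (fun a => a.val) (fun a ha => mem_Ico.2 ⟨by
        rcases mem_union.1 ha with h | h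
        exacts [hsub s (by omega) a h, hsub t (by omega) a h], a.isLt⟩)
        fun a _ b _ h => Fin.ext h
    rw [card_union_of_disjoint hdis, s.2, t.2, Nat.card_Ico] at h1
    omega

theorem schrijver_not_colorable {n k : ℕ} (hk : 1 ≤ k) (hkn : 2 * k ≤ n) :
    ¬ (schrijverGraph n k).Colorable (n - 2 * k + 1) := by
  classical
  rintro ⟨f⟩
  obtain ⟨d, hd⟩ : ∃ d, d = n - 2 * k := ⟨_, rfl⟩
  obtain ⟨L, hL⟩ : ∃ L : ℕ → (Fin (d + 1) → ℝ) → ℝ,
      L = fun (a : ℕ) (u : Fin (d + 1) → ℝ) => (-1 : ℝ) ^ a * ∑ j : Fin (d + 1), u j * (a : ℝ) ^ j.val := ⟨_, rfl⟩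
  have hLneg : ∀ a u, L a (-u) = -L a u := fun a u => by simp [hL, sum_neg_distrib]
  obtain ⟨A, hA⟩ : ∃ A : Fin (d + 1) → Set (Fin (d + 1) → ℝ), A = fun c =>
      ⋃ (s) (_ : (f s).val = c.val), ⋂ a ∈ s.1.1, {u | 0 < L a.val u} := ⟨_, rfl⟩
  have hopen : ∀ c, IsOpen (A c) := fun c => by
    rw [hA]
    refine isOpen_iUnion fun s => isOpen_iUnion fun _ => isOpen_biInter_finset fun a _ => ?_
    refine isOpen_lt continuous_const ?_
    rw [hL]
    fun_prop
  obtain ⟨c, u, -, hu, hnu⟩ := Fermat.Agent.BorsukUlam.lusternik_schnirelmann (V := Fin (d + 1) → ℝ)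
    (k := d) (by rw [Module.finrank_fintype_fun_eq_card, Fintype.card_fin]) A
    (fun i => Or.inl (hopen _)) fun u hu => by
      obtain ⟨P, hP⟩ : ∃ P : Polynomial ℝ, P = ∑ j : Fin (d + 1), Polynomial.monomial j.val (u j) :=
        ⟨_, rfl⟩
      have hP0 : P ≠ 0 := fun h => by
        have hu0 : u = 0 := funext fun j => by
          have hc := congrArg (fun p : Polynomial ℝ => p.coeff j.val) h
          simp only [hP, Polynomial.finsetSum_coeff, Polynomial.coeff_monomial,
            Polynomial.coeff_zero] at hc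
          rw [sum_eq_single j (fun b _ hb => if_neg fun e => hb (Fin.ext e)) (by simp),
            if_pos rfl] at hc
          exact hc
        simp [hu0] at hu
      have hPdeg : P.natDegree ≤ n - 2 * k := by
        rw [hP, ← hd]
        exact Polynomial.natDegree_sum_le_of_forall_le _ _ fun j _ =>
          (Polynomial.natDegree_monomial_le _).trans (Nat.le_of_lt_succ j.isLt)
      obtain ⟨S, hS, hScard, hSpos⟩ := gale hkn (by omega) P hP0 hPdeg
      obtain ⟨s, hs⟩ : ∃ s : Finset (Fin n), s = univ.filter fun a : Fin n => a.val ∈ S := ⟨_, rfl⟩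
      have hscard : s.card = k := by
        rw [← hScard, ← card_map Fin.valEmbedding (s := s)]
        congr 1
        ext a
        simp only [hs, mem_map, mem_filter, mem_univ, true_and, Fin.valEmbedding_apply]
        exact ⟨fun ⟨b, hb, e⟩ => e ▸ hb, fun ha => ⟨⟨a, hS.1 a ha⟩, ha, rfl⟩⟩
      have hstab : IsStableSubset s := by
        intro a ha b hb e
        have ha' : a.val ∈ S := (mem_filter.1 (hs ▸ ha :)).2
        have hb' : b.val ∈ S := (mem_filter.1 (hs ▸ hb :)).2
        rcases Nat.lt_or_ge (a.val + 1) n with h | h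
        · rw [Nat.mod_eq_of_lt h] at e
          exact hS.2.1 _ ha' (e ▸ hb')
        · have hmax : a.val + 1 = n := le_antisymm a.isLt h
          rw [hmax, Nat.mod_self] at e
          exact hS.2.2 ⟨e ▸ hb', by rwa [show n - 1 = a.val by omega]⟩
      obtain ⟨v, hv⟩ : ∃ v : {s : {s : Finset (Fin n) // s.card = k} // IsStableSubset s.1},
          v = ⟨⟨s, hscard⟩, hstab⟩ := ⟨_, rfl⟩
      refine Set.mem_iUnion.2 ⟨⟨(f v).val, (f v).isLt.trans_eq (by omega)⟩, ?_⟩
      rw [hA]
      refine Set.mem_iUnion.2 ⟨v, Set.mem_iUnion.2 ⟨rfl, Set.mem_iInter₂.2 fun a ha => ?_⟩⟩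
      rw [hv] at ha
      simp only at ha
      rw [hs] at ha
      have := hSpos a.val (mem_filter.1 ha).2
      simpa [hL, hP, Polynomial.eval_finsetSum, Polynomial.eval_monomial] using this
  rw [hA] at hu hnu
  obtain ⟨s, hs⟩ := Set.mem_iUnion.1 hu
  obtain ⟨hsc, hs⟩ := Set.mem_iUnion.1 hs
  obtain ⟨t, ht⟩ := Set.mem_iUnion.1 hnu
  obtain ⟨htc, ht⟩ := Set.mem_iUnion.1 ht
  have hdis : Disjoint s.1.1 t.1.1 := disjoint_left.2 fun a ha hb => by
    have h1 : 0 < L a.val u := Set.mem_iInter₂.1 hs a ha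
    have h2 : 0 < L a.val (-u) := Set.mem_iInter₂.1 ht a hb
    rw [hLneg] at h2
    linarith
  have hne : s.1 ≠ t.1 := fun e => by
    rw [e, disjoint_self, bot_eq_empty] at hdis
    have := t.1.2
    rw [hdis, card_empty] at this
    omega
  have hadj : (schrijverGraph n k).Adj s t := by
    show (SimpleGraph.fromRel fun s t : {s : Finset (Fin n) // s.card = k} => Disjoint s.1 t.1).Adj s.1 t.1
    exact (SimpleGraph.fromRel_adj _ _ _).2 ⟨hne, Or.inl hdis⟩
  exact f.valid hadj (Fin.ext (hsc.trans htc.symm))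

theorem kneser_chromaticNumber {n k : ℕ} (hk : 1 ≤ k) (hkn : 2 * k ≤ n) :
    (kneserGraph n k).chromaticNumber = (n - 2 * k + 2 : ℕ) := by
  rw [show n - 2 * k + 2 = (n - 2 * k + 1) + 1 from rfl, Nat.cast_add, Nat.cast_one,
    SimpleGraph.chromaticNumber_eq_iff_colorable_not_colorable]
  exact ⟨kneser_colorable hk hkn, fun ⟨f⟩ => schrijver_not_colorable hk hkn
    ⟨SimpleGraph.Coloring.mk (fun v => f v.1) fun h => f.valid h⟩⟩

theorem schrijver_chromaticNumber {n k : ℕ} (hk : 1 ≤ k) (hkn : 2 * k ≤ n) :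
    (schrijverGraph n k).chromaticNumber = (n - 2 * k + 2 : ℕ) := by
  rw [show n - 2 * k + 2 = (n - 2 * k + 1) + 1 from rfl, Nat.cast_add, Nat.cast_one,
    SimpleGraph.chromaticNumber_eq_iff_colorable_not_colorable]
  obtain ⟨f⟩ := kneser_colorable hk hkn
  exact ⟨⟨SimpleGraph.Coloring.mk (fun v => f v.1) fun h => f.valid h⟩,
    schrijver_not_colorable hk hkn⟩

end FA.TopologicalComb
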